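/-
S58lib / block Mod (helper6): **`EigenData`**.
For a normalised eigenform `g` of level `M`, a prime `lam` and a finite set `S` of primes containing
the primes dividing `M`: the character `χ_g` of the Hecke algebra away from `S`
(`χ_g (T_ℓ) = a_ℓ(g)`) is the restriction of the eigencharacter of `g` on the full Hecke algebra
(`S29lib.P.eigenChar`); its image `B = χ_g(𝕋^S) ⊂ ℂ` is a domain, finite over `ℤ` (S22), so it
embeds into the ring of integers `O'` of a finite extension of `ℚ_lam`
(`S29lib.S30.exists_extension`, `S29lib.Dvr.exists_dvr_structure`).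
-/
import Fermat.Agent.S58lib.Interface
import Fermat.Agent.S29lib.P.Character
import Fermat.Agent.S29lib.S30.Extend

set_option autoImplicit false
set_option linter.style.haveILetI false

noncomputable section

namespace Fermat.Agent.S58lib.Mod

open CuspForm ModularFormClass CongruenceSubgroup IsLocalRing Fermat.Agent.S29lib.Dvr
  Fermat.Agent.S29lib.P Fermat.Agent.S29lib.S30

variable {M : ℕ} [NeZero M]

/-- the character of the Hecke algebra away from `S` attached to a normalised eigenform: the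
restriction of the eigencharacter on the full Hecke algebra. -/
def chiOf {g : CuspForm (Gamma0 M) 2} (hg : g.IsNormalizedEigenform) (S : Set ℕ) :
    CuspForm.heckeAlgebra M 2 S →+* ℂ :=
  (algebraMap (integralClosure ℤ ℂ) ℂ).comp ((eigenChar hg).comp
    (Subalgebra.inclusion (CuspForm.heckeAlgebra_mono (Set.empty_subset S))).toRingHom)

theorem chiOf_T {g : CuspForm (Gamma0 M) 2} (hg : g.IsNormalizedEigenform) (S : Set ℕ)
    (ℓ : ℕ) (hℓ : ℓ.Prime) (hℓM : ¬ ℓ ∣ M) (hℓS : ℓ ∉ S) :
    chiOf hg S (CuspForm.heckeAlgebra.T hℓ hℓM hℓS) = qCoeff g ℓ := by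
  have h2 := eigenChar_heckeAllT hg ⟨ℓ, hℓ⟩
  have h3 : heckeAllT (N := M) ⟨ℓ, hℓ⟩ =
      CuspForm.heckeAlgebra.T hℓ hℓM (Set.notMem_empty _) := by
    unfold heckeAllT
    rw [dif_neg hℓM]
  rw [h3] at h2
  have h4 := congrArg (fun z : integralClosure ℤ ℂ => (z : ℂ)) h2
  exact h4

/-- **`EigenData`.** -/
theorem eigenData : EigenData := by
  classical
  intro M _ g hg lam hlam S _
  haveI : Module.Finite ℤ (CuspForm.heckeAlgebra M 2 (↑S : Set ℕ)) :=
    Fermat.Agent.S22.result M 2 ↑S
  let chig : CuspForm.heckeAlgebra M 2 (↑S : Set ℕ) →+* ℂ := chiOf hg ↑S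
  let B : Subring ℂ := chig.range
  haveI : Module.Finite ℤ B :=
    Module.Finite.of_surjective chig.rangeRestrict.toAddMonoidHom.toIntLinearMap
      chig.rangeRestrict_surjective
  have hι : Function.Injective (Int.castRingHom B) := by
    intro a b hab
    have h1 := congrArg (fun z : B => (z : ℂ)) hab
    simpa using h1
  haveI : Finite (ResidueField ℤ_[lam]) :=
    Finite.of_equiv _ (PadicInt.residueField (p := lam)).symm.toEquiv
  obtain ⟨K₁, hfd, θ, hθ⟩ := exists_extension (Int.castRingHom B) hι ℤ_[lam]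
    (Int.castRingHom ℤ_[lam])
  haveI := hfd
  obtain ⟨hdom, hdvr, hcompl, hfin, hchar, hmf, hloc, hinj⟩ :=
    exists_dvr_structure ℤ_[lam] (FractionRing ℤ_[lam]) K₁
  have hlamO : (lam : OL ℤ_[lam] K₁) ∈ maximalIdeal (OL ℤ_[lam] K₁) := by
    rw [mem_maximalIdeal, mem_nonunits_iff]
    intro hu
    have h1 : (lam : OL ℤ_[lam] K₁) = algebraMap ℤ_[lam] (OL ℤ_[lam] K₁) (lam : ℤ_[lam]) := by
      rw [map_natCast]
    rw [h1] at hu
    exact PadicInt.p_nonunit (isUnit_of_map_unit _ _ hu)
  haveI := hchar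
  have hθinj : Function.Injective θ := by
    rw [RingHom.injective_iff_ker_eq_bot]
    haveI : Algebra.IsIntegral ℤ B := inferInstance
    apply Ideal.eq_bot_of_comap_eq_bot (R := ℤ)
    rw [eq_bot_iff]
    intro n hn
    rw [Ideal.mem_comap, RingHom.mem_ker, eq_intCast, map_intCast, Int.cast_eq_zero] at hn
    rw [hn]
    exact Ideal.zero_mem _
  exact ⟨OL ℤ_[lam] K₁, inferInstance, hdom, hdvr, hcompl, hfin, hchar, hlamO, chig,
    fun ℓ hℓ hℓM hℓS => chiOf_T hg ↑S ℓ hℓ hℓM hℓS, θ, hθinj⟩

end Fermat.Agent.S58lib.Mod
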